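import Mathlib
import Fermat.Agent.MW.RRK.RR
import Fermat.Agent.MW.RRK.Diff
import Fermat.Agent.S24.Hurwitz.Degree

/-!
# S52 / [RAT], part 1: Riemann–Roch in terms of the prelude genus (prefix `s52r_`)

`K` algebraically closed of characteristic zero, `F / K` a function field.  The number `g` of
`rrk_riemannRoch` is the prelude `AlgebraicCurve.genus K F`:

* `s52r_riemannRoch`: there is a divisor `𝔇` of degree `2 g - 2`, `g = genus K F`, with
  `l(D) - l(𝔇 - D) = deg D + 1 - g` for every divisor `D`.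
-/

set_option autoImplicit false
set_option linter.unusedSectionVars false

noncomputable section

namespace Fermat.Agent.S52

open AlgebraicCurve IntermediateField KaehlerDifferential
open Fermat.Agent.MW Fermat.Agent.JT3 Fermat.Agent.S24

universe u v
variable {K : Type u} {F : Type v} [Field K] [Field F] [Algebra K F]
variable [IsAlgClosed K] [CharZero K]

/-- **Riemann–Roch for the prelude genus.** -/
theorem s52r_riemannRoch (x₀ : F) (hx₀ : Transcendental K x₀) [FiniteDimensional K⟮x₀⟯ F]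
    [HasCanonicalDivisor (K := K) (F := F)] :
    ∃ 𝔇 : Divisor K F, Divisor.degree 𝔇 = 2 * (genus K F : ℤ) - 2 ∧
      ∀ D : Divisor K F, (Module.finrank K ↥(riemannRochSpace D) : ℤ) -
        Module.finrank K ↥(riemannRochSpace (𝔇 - D)) = Divisor.degree D + 1 - (genus K F : ℤ) := by
  classical
  obtain ⟨g, hg⟩ := rrk_riemannRoch (K := K) x₀ hx₀
  have hnc : ∀ c : K, x₀ ≠ algebraMap K F c := by
    intro c hc
    exact hx₀ (hc ▸ isAlgebraic_algebraMap c)
  obtain ⟨𝔇, h𝔇, hRR⟩ := hg x₀ hnc
  -- `deg 𝔇 = 2g - 2`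
  have hdeg : Divisor.degree 𝔇 = 2 * (g : ℤ) - 2 := by
    have h0 := hRR 0
    have h1 := hRR 𝔇
    rw [sub_zero, map_zero] at h0
    rw [sub_self] at h1
    linarith
  -- the prelude genus is `g`
  have hgen : genus K F = g := by
    have hex : ∃ ω : Ω[F⁄K], ω ≠ 0 := ⟨D K F x₀, hw_D_ne_zero hx₀⟩
    have hfin : {v : Place K F | rrk_dOrd x₀ v ≠ 0}.Finite := rrk_finite_ram hx₀
    have hS : ∀ v : Place K F, v ∉ hfin.toFinset → v.ordDifferential (D K F x₀) = 0 := by
      intro v hv
      rw [Set.Finite.mem_toFinset, Set.mem_ofPred_eq, not_not] at hv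
      rw [← rrk_dOrd_eq_ordDifferential hx₀ v, hv]
    have e1 := hw_degree_eq_sum_ordDifferential hx₀ (canonicalDivisorOf hex.choose_spec)
      hex.choose_spec (fun v => canonicalDivisorOf_apply hex.choose_spec v) hfin.toFinset hS
    have e2 := hw_degree_eq_sum_ordDifferential hx₀ 𝔇 (hw_D_ne_zero hx₀)
      (fun v => by rw [h𝔇 v, rrk_dOrd_eq_ordDifferential hx₀ v]) hfin.toFinset hS
    rw [genus, dif_pos hex, e1, ← e2, hdeg]
    have : (2 * (g : ℤ) - 2 + 2).toNat = 2 * g := by omega
    rw [this]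
    omega
  rw [hgen]
  exact ⟨𝔇, hdeg, hRR⟩

end Fermat.Agent.S52
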