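import Mathlib
import Fermat.Agent.S52.RAT.Genus

/-!
# S52 / [RAT], part 2: a function field of genus zero over an algebraically closed field is
rational (prefix `s52r_`)

`K` algebraically closed of characteristic zero, `F / K` a function field of (prelude) genus `0`,
`P` a place.  Then `l(P) = 2`; any non-constant `y ∈ L(P)` has a simple pole at `P` and no other
pole, generates `F` over `K`, and `L(P) = K + K y`.

* `s52r_geom`: the statement above.
-/

set_option autoImplicit false
set_option linter.unusedSectionVars false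

noncomputable section

namespace Fermat.Agent.S52

open AlgebraicCurve IntermediateField KaehlerDifferential
open Fermat.Agent.MW Fermat.Agent.JT3 Fermat.Agent.S24

universe u v
variable {K : Type u} {F : Type v} [Field K] [Field F] [Algebra K F]
variable [IsAlgClosed K] [CharZero K]

/-- In genus zero, `l(P) = 2`. -/
theorem s52r_finrank_L_single (x₀ : F) (hx₀ : Transcendental K x₀) [FiniteDimensional K⟮x₀⟯ F]
    [HasCanonicalDivisor (K := K) (F := F)] (hg : genus K F = 0) (P : Place K F) :
    Module.finrank K ↥(riemannRochSpace (Finsupp.single P (1 : ℤ))) = 2 := by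
  have hsep : rt_IsSepGen K x₀ := rt_isSepGen_of_charZero hx₀
  obtain ⟨𝔇, hdeg, hRR⟩ := s52r_riemannRoch (K := K) x₀ hx₀
  rw [hg] at hdeg hRR
  have h1 := hRR (Finsupp.single P (1 : ℤ))
  have hneg : Divisor.degree (𝔇 - Finsupp.single P (1 : ℤ)) < 0 := by
    rw [map_sub, hdeg, rt_degree_single hsep]
    norm_num
  rw [rt_finrank_L_of_degree_neg hsep hneg, rt_degree_single hsep] at h1
  have : (Module.finrank K ↥(riemannRochSpace (Finsupp.single P (1 : ℤ))) : ℤ) = 2 := by
    push_cast at h1
    linarith
  exact_mod_cast this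

/-- **[RAT-GEOM]**: genus zero over an algebraically closed field of characteristic zero. -/
theorem s52r_geom (x₀ : F) (hx₀ : Transcendental K x₀) [FiniteDimensional K⟮x₀⟯ F]
    [HasCanonicalDivisor (K := K) (F := F)] (hg : genus K F = 0) (P : Place K F) :
    ∃ y : F, P.ord y = -1 ∧ (∀ v : Place K F, v ≠ P → 0 ≤ v.ord y) ∧ K⟮y⟯ = ⊤ ∧
      ∀ f : F, -1 ≤ P.ord f → (∀ v : Place K F, v ≠ P → 0 ≤ v.ord f) →
        ∃ a b : K, f = algebraMap K F a + b • y := by
  classical
  have hsep : rt_IsSepGen K x₀ := rt_isSepGen_of_charZero hx₀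
  set DP : Divisor K F := Finsupp.single P (1 : ℤ) with hDP
  have hDP0 : (0 : Divisor K F) ≤ DP := by
    rw [Finsupp.le_def]
    intro v
    rw [hDP, Finsupp.zero_apply, Finsupp.single_apply]
    split_ifs <;> norm_num
  have hl : Module.finrank K ↥(riemannRochSpace DP) = 2 := s52r_finrank_L_single x₀ hx₀ hg P
  have hfinL : Module.Finite K ↥(riemannRochSpace DP) := rt_L_finite hsep DP
  have hfin0 : Module.Finite K ↥(riemannRochSpace (0 : Divisor K F)) := rt_finite_L_zero hsep
  -- a non-constant element of `L(P)`
  have hex : ∃ y ∈ riemannRochSpace DP, y ∉ riemannRochSpace (0 : Divisor K F) := by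
    by_contra hcon
    push Not at hcon
    have hle : riemannRochSpace DP ≤ riemannRochSpace (0 : Divisor K F) := hcon
    have := Submodule.finrank_mono hle
    rw [hl, rt_finrank_L_zero hsep] at this
    omega
  obtain ⟨y, hyL, hy0⟩ := hex
  have hyne : y ≠ 0 := by
    rintro rfl
    exact hy0 (zero_mem _)
  have hyord : ∀ v : Place K F, -DP v ≤ v.ord y := (rt_mem_L_iff hyne).mp hyL
  have hyv : ∀ v : Place K F, v ≠ P → 0 ≤ v.ord y := by
    intro v hv
    have := hyord v
    rw [hDP, Finsupp.single_apply, if_neg (Ne.symm hv)] at this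
    simpa using this
  have hyP : P.ord y = -1 := by
    have h1 : -1 ≤ P.ord y := by
      have := hyord P
      rw [hDP, Finsupp.single_apply, if_pos rfl] at this
      exact this
    by_contra hne
    apply hy0
    rw [rt_mem_L_iff hyne]
    intro v
    rw [Finsupp.zero_apply, neg_zero]
    by_cases hv : v = P
    · subst hv
      omega
    · exact hyv v hv
  have hytr : Transcendental K y := hw_transcendental_of_ord_ne_zero P (by omega)
  have : FiniteDimensional K⟮y⟯ F := hw_finiteDimensional_adjoin x₀ hytr
  -- `[F : K(y)] = 1`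
  have hpole : rt_poleDiv hsep y = DP := by
    ext v
    rw [rt_poleDiv_apply, hDP, Finsupp.single_apply]
    by_cases hv : v = P
    · subst hv
      rw [if_pos rfl, hyP]
      norm_num
    · rw [if_neg (Ne.symm hv)]
      have := hyv v hv
      omega
  have hdeg1 : (Module.finrank K⟮y⟯ F : ℤ) = 1 := by
    rw [← rt_degree_poleDiv hsep hytr, hpole, hDP, rt_degree_single hsep]
  have htop : K⟮y⟯ = ⊤ :=
    IntermediateField.finrank_eq_one_iff_eq_top.mp (by exact_mod_cast hdeg1)
  refine ⟨y, hyP, hyv, htop, ?_⟩
  -- `L(P) = K + K y`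
  have h1L : (1 : F) ∈ riemannRochSpace DP := by
    have := rt_algebraMap_mem_L hDP0 (1 : K)
    rwa [map_one] at this
  let φ : (K × K) →ₗ[K] ↥(riemannRochSpace DP) :=
    LinearMap.coprod (LinearMap.toSpanSingleton K _ ⟨1, h1L⟩)
      (LinearMap.toSpanSingleton K _ ⟨y, hyL⟩)
  have hφ : ∀ a b : K, ((φ (a, b) : ↥(riemannRochSpace DP)) : F) = algebraMap K F a + b • y := by
    intro a b
    simp [φ, Algebra.smul_def]
  have hinj : Function.Injective φ := by
    rw [← LinearMap.ker_eq_bot, LinearMap.ker_eq_bot']
    rintro ⟨a, b⟩ hab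
    have h := congrArg (fun z : ↥(riemannRochSpace DP) => (z : F)) hab
    simp only [hφ, ZeroMemClass.coe_zero] at h
    have hb : b = 0 := by
      by_contra hb
      apply hy0
      have : y = algebraMap K F (-(b⁻¹ * a)) := by
        have h2 : b • y = -algebraMap K F a := by linear_combination h
        have h3 : y = b⁻¹ • (b • y) := by rw [smul_smul, inv_mul_cancel₀ hb, one_smul]
        rw [h3, h2, Algebra.smul_def, map_neg, map_mul]
        ring
      rw [this]
      exact rt_algebraMap_mem_L le_rfl _
    subst hb
    rw [zero_smul, add_zero] at h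
    have ha : a = 0 := by
      have := (algebraMap K F).injective (h.trans (map_zero _).symm)
      exact this
    rw [ha]
    rfl
  have hsurj : Function.Surjective φ := by
    have hfr : Module.finrank K (K × K) = Module.finrank K ↥(riemannRochSpace DP) := by
      rw [hl, Module.finrank_prod, Module.finrank_self]
    exact (LinearMap.injective_iff_surjective_of_finrank_eq_finrank hfr).mp hinj
  intro f hfP hfv
  have hfL : f ∈ riemannRochSpace DP := by
    rw [mem_riemannRochSpace_iff]
    intro v
    right
    by_cases hv : v = P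
    · subst hv
      rw [hDP, Finsupp.single_apply, if_pos rfl]
      exact hfP
    · rw [hDP, Finsupp.single_apply, if_neg (Ne.symm hv), neg_zero]
      exact hfv v hv
  obtain ⟨⟨a, b⟩, hab⟩ := hsurj ⟨f, hfL⟩
  refine ⟨a, b, ?_⟩
  rw [← hφ a b, hab]

end Fermat.Agent.S52
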