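import Mathlib
import Fermat.Agent.S52.RAT.Geom
import Fermat.Agent.S24.Hurwitz.Interface

/-!
# S52 / [RAT], part 3: rationality from the Riemann–Hurwitz count (prefix `s52r_`)

`K` algebraically closed of characteristic zero, `F / K` a function field, `x ∈ F` non-constant.
If the Riemann–Hurwitz count of `x` (the right-hand side of `hw_degree_canonical`) is negative,
then the prelude genus of `F` is `0` and `F` is a rational function field.

* `s52r_genus_zero_of_neg`: negative Riemann–Hurwitz count `⟹ genus K F = 0`;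
* `s52r_rational`: the conclusion of `s52r_geom` under the same hypothesis.
-/

set_option autoImplicit false
set_option linter.unusedSectionVars false

noncomputable section

namespace Fermat.Agent.S52

open AlgebraicCurve IntermediateField KaehlerDifferential
open Fermat.Agent.S24

universe u v
variable {K : Type u} {F : Type v} [Field K] [Field F] [Algebra K F]
variable [IsAlgClosed K] [CharZero K]

/-- Negative Riemann–Hurwitz count `⟹` genus zero. -/
theorem s52r_genus_zero_of_neg (x : F) (hx : Transcendental K x) [FiniteDimensional K⟮x⟯ F]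
    [HasCanonicalDivisor (K := K) (F := F)] (S : Finset K)
    (hS : ∀ c ∉ S, (hw_placesOver x c).ncard = Module.finrank K⟮x⟯ F)
    (hneg : - 2 * (Module.finrank K⟮x⟯ F : ℤ)
      + ∑ c ∈ S, ((Module.finrank K⟮x⟯ F : ℤ) - (hw_placesOver x c).ncard)
      + ((Module.finrank K⟮x⟯ F : ℤ) - (hw_placesAtInfty (K := K) x).ncard) < 0) :
    genus K F = 0 := by
  rw [hw_genus_eq_of_ncard x hx S hS]
  omega

/-- **[RAT-GEOM]** in the Riemann–Hurwitz vocabulary of `S24/Hurwitz`. -/
theorem s52r_rational (x : F) (hx : Transcendental K x) [FiniteDimensional K⟮x⟯ F]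
    [HasCanonicalDivisor (K := K) (F := F)] (S : Finset K)
    (hS : ∀ c ∉ S, (hw_placesOver x c).ncard = Module.finrank K⟮x⟯ F)
    (hneg : - 2 * (Module.finrank K⟮x⟯ F : ℤ)
      + ∑ c ∈ S, ((Module.finrank K⟮x⟯ F : ℤ) - (hw_placesOver x c).ncard)
      + ((Module.finrank K⟮x⟯ F : ℤ) - (hw_placesAtInfty (K := K) x).ncard) < 0)
    (P : Place K F) :
    ∃ y : F, P.ord y = -1 ∧ (∀ v : Place K F, v ≠ P → 0 ≤ v.ord y) ∧ K⟮y⟯ = ⊤ ∧
      ∀ f : F, -1 ≤ P.ord f → (∀ v : Place K F, v ≠ P → 0 ≤ v.ord f) →
        ∃ a b : K, f = algebraMap K F a + b • y :=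
  s52r_geom x hx (s52r_genus_zero_of_neg x hx S hS hneg) P

end Fermat.Agent.S52
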