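import Mathlib

/-!
# S52 / [RAT], part 4: the descent step (prefix `s52r_`), Mathlib only

`Ω / Z` a Galois extension (e.g. `Ω` an algebraic closure of `Z`, characteristic zero), `k ⊆ Z`,
`kb ⊆ Ω` an intermediate field algebraic over `k`, stable under `Aut(Ω/Z)`, with `Z ∩ kb = k`.

* `s52r_linDisj`: elements of `Z` that are linearly independent over `k` stay so over `kb`;
* `s52r_desc`: if `Z·kb = kb(y)` with `y` transcendental over `kb` and `σ y ∈ kb + kb y` for all
  `σ ∈ Aut(Ω/Z)`, then `Z = k(s)` for some `s = A + B y`, `A, B ∈ kb`, `B ≠ 0`.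
-/

set_option autoImplicit false

namespace Fermat.Agent.S52

open IntermediateField Polynomial

variable {k Ω : Type*} [Field k] [Field Ω] [Algebra k Ω]

/-- An element of `Ω` fixed by `Aut(Ω/Z)` lies in `Z`. -/
theorem s52r_mem_of_fixed (Z : IntermediateField k Ω) [IsGalois ↥Z Ω] {x : Ω}
    (hx : ∀ σ : Ω ≃ₐ[↥Z] Ω, σ x = x) : x ∈ Z := by
  obtain ⟨z, hz⟩ := (InfiniteGalois.mem_range_algebraMap_iff_fixed (k := ↥Z) (K := Ω) x).mpr hx
  rw [← hz]
  exact z.2

/-- `Aut(Ω/Z)` fixes `Z`. -/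
theorem s52r_fix (Z : IntermediateField k Ω) (σ : Ω ≃ₐ[↥Z] Ω) {z : Ω} (hz : z ∈ Z) : σ z = z :=
  σ.commutes ⟨z, hz⟩

/-- **Linear disjointness** of `Z` and `kb` over `k`, from `Z ∩ kb = k` and the Galois action. -/
theorem s52r_linDisj (Z kb : IntermediateField k Ω) [IsGalois ↥Z Ω]
    (hstabkb : ∀ (σ : Ω ≃ₐ[↥Z] Ω) (c : Ω), c ∈ kb → σ c ∈ kb)
    (hreg : ∀ c : Ω, c ∈ Z → c ∈ kb → c ∈ (⊥ : IntermediateField k Ω))
    {ι : Type*} [Fintype ι] (w : ι → Ω) (hw : ∀ i, w i ∈ Z) (hli : LinearIndependent k w)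
    (c : ι → Ω) (hc : ∀ i, c i ∈ kb) (hsum : ∑ i, c i * w i = 0) : ∀ i, c i = 0 := by
  classical
  suffices H : ∀ (n : ℕ) (c : ι → Ω), (∀ i, c i ∈ kb) → ∑ i, c i * w i = 0 →
      (Finset.univ.filter fun i => c i ≠ 0).card ≤ n → ∀ i, c i = 0 from
    H _ c hc hsum le_rfl
  intro n
  induction n with
  | zero =>
    intro c _ _ hcard i
    by_contra hi
    have : i ∈ Finset.univ.filter fun i => c i ≠ 0 := by simp [hi]
    have := Finset.card_pos.mpr ⟨i, this⟩
    omega
  | succ n ih =>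
    intro c hc hsum hcard
    by_contra hne
    push Not at hne
    obtain ⟨i₀, hi₀⟩ := hne
    -- normalise
    set c' : ι → Ω := fun i => c i / c i₀ with hc'
    have hc'kb : ∀ i, c' i ∈ kb := fun i => div_mem (hc i) (hc i₀)
    have hsum' : ∑ i, c' i * w i = 0 := by
      have : ∑ i, c' i * w i = (∑ i, c i * w i) / c i₀ := by
        rw [Finset.sum_div]
        refine Finset.sum_congr rfl fun i _ => ?_
        rw [hc']
        ring
      rw [this, hsum, zero_div]
    have hfix : ∀ (σ : Ω ≃ₐ[↥Z] Ω) (i : ι), σ (c' i) = c' i := by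
      intro σ
      have hd : ∀ i, σ (c' i) - c' i = 0 := by
        apply ih (fun i => σ (c' i) - c' i)
        · exact fun i => sub_mem (hstabkb σ _ (hc'kb i)) (hc'kb i)
        · have h1 : ∑ i, σ (c' i) * w i = 0 := by
            have := congrArg σ hsum'
            rw [map_sum, map_zero] at this
            rw [← this]
            refine Finset.sum_congr rfl fun i _ => ?_
            rw [map_mul, s52r_fix Z σ (hw i)]
          simp only [sub_mul, Finset.sum_sub_distrib, h1, hsum', sub_zero]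
        · have hsub : (Finset.univ.filter fun i => σ (c' i) - c' i ≠ 0) ⊆
              (Finset.univ.filter fun i => c i ≠ 0).erase i₀ := by
            intro i hi
            rw [Finset.mem_filter] at hi
            rw [Finset.mem_erase, Finset.mem_filter]
            refine ⟨?_, Finset.mem_univ _, ?_⟩
            · rintro rfl
              apply hi.2
              simp [hc', div_self hi₀]
            · intro hci
              apply hi.2
              simp [hc', hci]
          have h2 := Finset.card_le_card hsub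
          have hmem : i₀ ∈ Finset.univ.filter fun i => c i ≠ 0 := by simp [hi₀]
          rw [Finset.card_erase_of_mem hmem] at h2
          have := Finset.card_pos.mpr ⟨i₀, hmem⟩
          omega
      intro i
      exact sub_eq_zero.mp (hd i)
    -- the normalised coefficients are in `k`
    have hk : ∀ i, ∃ α : k, algebraMap k Ω α = c' i := by
      intro i
      have h1 : c' i ∈ Z := s52r_mem_of_fixed Z fun σ => hfix σ i
      exact IntermediateField.mem_bot.mp (hreg _ h1 (hc'kb i))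
    choose α hα using hk
    have hrel : ∑ i, α i • w i = 0 := by
      rw [← hsum']
      refine Finset.sum_congr rfl fun i _ => ?_
      rw [Algebra.smul_def, hα]
    have h0 := Fintype.linearIndependent_iff.mp hli α hrel i₀
    have h1 : c' i₀ = 1 := by simp [hc', div_self hi₀]
    rw [← hα i₀, h0, map_zero] at h1
    exact zero_ne_one h1

/-- The powers of a transcendental element are linearly independent. -/
theorem s52r_linearIndependent_pow {s : Ω} (hs : Transcendental k s) :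
    LinearIndependent k (fun i : ℕ => s ^ i) := by
  have h := (Polynomial.basisMonomials k).linearIndependent
  have h2 := h.map' (aeval s).toLinearMap
    (LinearMap.ker_eq_bot.mpr (transcendental_iff_injective.mp hs))
  have e : (⇑(aeval s).toLinearMap ∘ ⇑(Polynomial.basisMonomials k)) = fun i : ℕ => s ^ i := by
    funext i
    simp [Polynomial.coe_basisMonomials]
  rwa [e] at h2

/-- An element of `Z` which is a rational function of `s ∈ Z` with coefficients in `kb` is a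
rational function of `s` with coefficients in `k`. -/
theorem s52r_mem_adjoin (Z kb : IntermediateField k Ω) [IsGalois ↥Z Ω]
    (hstabkb : ∀ (σ : Ω ≃ₐ[↥Z] Ω) (c : Ω), c ∈ kb → σ c ∈ kb)
    (hreg : ∀ c : Ω, c ∈ Z → c ∈ kb → c ∈ (⊥ : IntermediateField k Ω))
    {s : Ω} (hsZ : s ∈ Z) (hs : Transcendental k s) {z : Ω} (hz : z ∈ Z)
    (f g : Polynomial ↥kb) (hg : aeval s g ≠ 0) (hzg : z * aeval s g = aeval s f) :
    z ∈ k⟮s⟯ := by
  classical
  set N := max f.natDegree g.natDegree + 1 with hN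
  have hfN : f.natDegree < N := by omega
  have hgN : g.natDegree < N := by omega
  let w : Fin N ⊕ Fin N → Ω := Sum.elim (fun n => z * s ^ (n : ℕ)) (fun n => s ^ (n : ℕ))
  let c : Fin N ⊕ Fin N → Ω :=
    Sum.elim (fun n => ((g.coeff n : ↥kb) : Ω)) (fun n => -((f.coeff n : ↥kb) : Ω))
  have hw : ∀ i, w i ∈ Z := by
    rintro (n | n)
    · exact mul_mem hz (pow_mem hsZ _)
    · exact pow_mem hsZ _
  have hc : ∀ i, c i ∈ kb := by
    rintro (n | n)
    · exact (g.coeff n).2
    · exact neg_mem (f.coeff n).2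
  have hsum : ∑ i, c i * w i = 0 := by
    rw [Fintype.sum_sum_type]
    simp only [c, w, Sum.elim_inl, Sum.elim_inr]
    have e1 : ∑ n : Fin N, ((g.coeff n : ↥kb) : Ω) * (z * s ^ (n : ℕ)) = z * aeval s g := by
      rw [aeval_eq_sum_range' hgN, Finset.mul_sum, ← Fin.sum_univ_eq_sum_range
        (fun i => z * (g.coeff i • s ^ i)) N]
      refine Finset.sum_congr rfl fun n _ => ?_
      rw [Algebra.smul_def]
      show _ = z * (((g.coeff n : ↥kb) : Ω) * s ^ (n : ℕ))
      ring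
    have e2 : ∑ n : Fin N, -((f.coeff n : ↥kb) : Ω) * s ^ (n : ℕ) = -aeval s f := by
      rw [aeval_eq_sum_range' hfN, ← Fin.sum_univ_eq_sum_range
        (fun i => (f.coeff i • s ^ i)) N, ← Finset.sum_neg_distrib]
      refine Finset.sum_congr rfl fun n _ => ?_
      rw [Algebra.smul_def]
      show _ = -(((f.coeff n : ↥kb) : Ω) * s ^ (n : ℕ))
      ring
    rw [e1, e2, hzg]
    ring
  have hcne : ¬ ∀ i, c i = 0 := by
    intro h0
    apply hg
    rw [aeval_eq_sum_range' hgN]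
    refine Finset.sum_eq_zero fun n hn => ?_
    have := h0 (Sum.inl ⟨n, Finset.mem_range.mp hn⟩)
    simp only [c, Sum.elim_inl] at this
    have h1 : g.coeff n = 0 := Subtype.ext this
    rw [h1, zero_smul]
  have hnli : ¬ LinearIndependent k w := fun hli =>
    hcne (s52r_linDisj Z kb hstabkb hreg w hw hli c hc hsum)
  obtain ⟨γ, hγ, i₁, hi₁⟩ := Fintype.not_linearIndependent_iff.mp hnli
  rw [Fintype.sum_sum_type] at hγ
  simp only [w, Sum.elim_inl, Sum.elim_inr] at hγ
  set Gs : Ω := ∑ n : Fin N, γ (Sum.inl n) • s ^ (n : ℕ) with hGs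
  set Fs : Ω := ∑ n : Fin N, γ (Sum.inr n) • s ^ (n : ℕ) with hFs
  have hrel : z * Gs + Fs = 0 := by
    rw [← hγ, hGs, Finset.mul_sum]
    congr 1
    refine Finset.sum_congr rfl fun n _ => ?_
    rw [Algebra.smul_def, Algebra.smul_def]
    ring
  have hpow : LinearIndependent k (fun n : Fin N => s ^ (n : ℕ)) :=
    (s52r_linearIndependent_pow hs).comp _ Fin.val_injective
  have hGne : Gs ≠ 0 := by
    intro hG0
    have hF0 : Fs = 0 := by
      rw [hG0, mul_zero, zero_add] at hrel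
      exact hrel
    have h1 := Fintype.linearIndependent_iff.mp hpow (fun n => γ (Sum.inl n)) hG0
    have h2 := Fintype.linearIndependent_iff.mp hpow (fun n => γ (Sum.inr n)) hF0
    rcases i₁ with n | n
    · exact hi₁ (h1 n)
    · exact hi₁ (h2 n)
  have hsmem : s ∈ k⟮s⟯ := mem_adjoin_simple_self k s
  have hmemG : Gs ∈ k⟮s⟯ :=
    sum_mem fun n _ => by
      rw [Algebra.smul_def]
      exact mul_mem (IntermediateField.algebraMap_mem _ _) (pow_mem hsmem _)
  have hmemF : Fs ∈ k⟮s⟯ :=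
    sum_mem fun n _ => by
      rw [Algebra.smul_def]
      exact mul_mem (IntermediateField.algebraMap_mem _ _) (pow_mem hsmem _)
  have hzeq : z = -Fs / Gs := by
    rw [eq_div_iff hGne]
    linear_combination hrel
  rw [hzeq]
  exact div_mem (neg_mem hmemF) hmemG

/-- **[RAT-DESC]**: descent of a generator. -/
theorem s52r_desc (Z kb : IntermediateField k Ω) [IsGalois ↥Z Ω]
    (hkb : ∀ c ∈ kb, IsAlgebraic k c)
    (hstabkb : ∀ (σ : Ω ≃ₐ[↥Z] Ω) (c : Ω), c ∈ kb → σ c ∈ kb)
    (hreg : ∀ c : Ω, c ∈ Z → c ∈ kb → c ∈ (⊥ : IntermediateField k Ω))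
    (y : Ω) (hytr : Transcendental ↥kb y) (hy : y ∈ Z ⊔ kb)
    (hZ : ∀ z ∈ Z, z ∈ IntermediateField.adjoin ↥kb {y})
    (hstab : ∀ σ : Ω ≃ₐ[↥Z] Ω, ∃ a ∈ kb, ∃ b ∈ kb, σ y = a + b * y) :
    ∃ s ∈ Z, (∃ A ∈ kb, ∃ B ∈ kb, B ≠ 0 ∧ s = A + B * y) ∧ ∀ z ∈ Z, z ∈ k⟮s⟯ := by
  classical
  -- Step A: a finite subextension `K ≤ kb` with `y ∈ Z ⊔ K`
  rw [IntermediateField.sup_def] at hy
  obtain ⟨T, hTsub, hyT⟩ := IntermediateField.exists_finset_of_mem_adjoin hy
  let K : IntermediateField k Ω := IntermediateField.adjoin k ((T : Set Ω) ∩ kb)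
  have hfinS : Finite ↥((T : Set Ω) ∩ kb) := (T.finite_toSet.inter_of_left _).to_subtype
  have hKfin : FiniteDimensional k K :=
    IntermediateField.finiteDimensional_adjoin fun x hx => (hkb x hx.2).isIntegral
  have hKle : K ≤ kb := IntermediateField.adjoin_le_iff.mpr Set.inter_subset_right
  have hyK : y ∈ Z ⊔ K := by
    have hle : IntermediateField.adjoin k (T : Set Ω) ≤ Z ⊔ K := by
      rw [IntermediateField.adjoin_le_iff]
      intro t ht
      rcases hTsub ht with h | h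
      · exact (le_sup_left : Z ≤ Z ⊔ K) h
      · exact (le_sup_right : K ≤ Z ⊔ K) (IntermediateField.subset_adjoin k _ ⟨ht, h⟩)
    exact hle hyT
  -- Step B: restrictions to `K`
  let res : (Ω ≃ₐ[↥Z] Ω) → (↥K →ₐ[k] Ω) := fun σ =>
    ((σ.restrictScalars k : Ω ≃ₐ[k] Ω) : Ω →ₐ[k] Ω).comp K.val
  have hres : ∀ (σ : Ω ≃ₐ[↥Z] Ω) (c : ↥K), res σ c = σ (c : Ω) := fun _ _ => rfl
  let Emb : Finset (↥K →ₐ[k] Ω) := Finset.univ.filter fun φ => φ ∈ Set.range res
  have hEmb : ∀ φ, φ ∈ Emb ↔ φ ∈ Set.range res := fun φ => by simp [Emb]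
  let lift : (↥K →ₐ[k] Ω) → (Ω ≃ₐ[↥Z] Ω) := fun φ =>
    if h : φ ∈ Set.range res then h.choose else 1
  have hlift : ∀ φ ∈ Emb, res (lift φ) = φ := by
    intro φ hφ
    have h := (hEmb φ).mp hφ
    simp only [lift, dif_pos h]
    exact h.choose_spec
  have hliftc : ∀ φ ∈ Emb, ∀ c : ↥K, lift φ (c : Ω) = φ c := by
    intro φ hφ c
    rw [← hres, hlift φ hφ]
  have hresmem : ∀ σ, res σ ∈ Emb := fun σ => (hEmb _).mpr ⟨σ, rfl⟩
  -- two automorphisms with the same restriction to `K` agree on `Z ⊔ K`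
  have hagree : ∀ σ₁ σ₂ : Ω ≃ₐ[↥Z] Ω, res σ₁ = res σ₂ → ∀ x ∈ Z ⊔ K, σ₁ x = σ₂ x := by
    intro σ₁ σ₂ h12 x hx
    rw [IntermediateField.sup_def] at hx
    induction hx using IntermediateField.adjoin_induction with
    | mem x hx =>
      rcases hx with hx | hx
      · rw [s52r_fix Z σ₁ hx, s52r_fix Z σ₂ hx]
      · have := congrArg (fun φ : ↥K →ₐ[k] Ω => φ ⟨x, hx⟩) h12
        simpa [hres] using this
    | algebraMap x =>
      rw [s52r_fix Z σ₁ (Z.algebraMap_mem x), s52r_fix Z σ₂ (Z.algebraMap_mem x)]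
    | add x y _ _ hx hy => rw [map_add, map_add, hx, hy]
    | inv x _ hx => rw [map_inv₀, map_inv₀, hx]
    | mul x y _ _ hx hy => rw [map_mul, map_mul, hx, hy]
  -- the coefficients of `σ y`
  choose a ha b hb hab using hstab
  have hbne : ∀ σ, b σ ≠ 0 := by
    intro σ h0
    have h1 : σ y = a σ := by rw [hab σ, h0, zero_mul, add_zero]
    have h2 : y = σ.symm (a σ) := by rw [← h1, AlgEquiv.symm_apply_apply]
    have h3 : y ∈ kb := h2 ▸ hstabkb σ.symm _ (ha σ)
    exact hytr (isAlgebraic_algebraMap (⟨y, h3⟩ : ↥kb))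
  -- Step D: Dedekind
  have hDed : ∃ c : ↥K, ∑ φ ∈ Emb, φ c * b (lift φ) ≠ 0 := by
    by_contra hcon
    push Not at hcon
    let v : ↥Emb → (↥K →* Ω) := fun φ => ((φ.1 : ↥K →ₐ[k] Ω) : ↥K →* Ω)
    have hv : Function.Injective v := by
      intro φ₁ φ₂ h
      apply Subtype.ext
      apply AlgHom.ext
      intro c
      exact congrArg (fun f : ↥K →* Ω => f c) h
    have hli := (linearIndependent_monoidHom ↥K Ω).comp v hv
    have h0 : ∑ φ : ↥Emb, b (lift φ.1) • ((fun f : ↥K →* Ω => (f : ↥K → Ω)) ∘ v) φ = 0 := by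
      funext c
      rw [Finset.sum_apply]
      simp only [Function.comp_apply, Pi.smul_apply, smul_eq_mul, Pi.zero_apply]
      rw [Finset.sum_coe_sort Emb (fun φ => b (lift φ) * ((φ : ↥K →* Ω) c))]
      rw [← hcon c]
      refine Finset.sum_congr rfl fun φ _ => ?_
      rw [mul_comm]
      rfl
    have h1 := Fintype.linearIndependent_iff.mp hli (fun φ => b (lift φ.1)) h0
      ⟨res 1, hresmem 1⟩
    exact hbne _ h1
  obtain ⟨c, hc⟩ := hDed
  -- the element
  set s : Ω := ∑ φ ∈ Emb, lift φ ((c : Ω) * y) with hs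
  have hckb : ∀ φ ∈ Emb, φ c ∈ kb := by
    intro φ hφ
    rw [← hliftc φ hφ c]
    exact hstabkb _ _ (hKle c.2)
  have hsAB : s = (∑ φ ∈ Emb, φ c * a (lift φ)) + (∑ φ ∈ Emb, φ c * b (lift φ)) * y := by
    rw [hs, Finset.sum_mul, ← Finset.sum_add_distrib]
    refine Finset.sum_congr rfl fun φ hφ => ?_
    rw [map_mul, hliftc φ hφ c, hab]
    ring
  have hsZ : s ∈ Z := by
    apply s52r_mem_of_fixed Z
    intro τ
    rw [hs, map_sum]
    have hcy : (c : Ω) * y ∈ Z ⊔ K := mul_mem ((le_sup_right : K ≤ Z ⊔ K) c.2) hyK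
    refine Finset.sum_bij (fun φ _ => res (τ * lift φ)) (fun φ _ => hresmem _) ?_ ?_ ?_
    · intro φ₁ h₁ φ₂ h₂ h
      apply AlgHom.ext
      intro d
      have := congrArg (fun ψ : ↥K →ₐ[k] Ω => ψ d) h
      simp only [hres, AlgEquiv.mul_apply] at this
      have h' := τ.injective this
      rwa [hliftc φ₁ h₁, hliftc φ₂ h₂] at h'
    · intro ψ hψ
      refine ⟨res (τ⁻¹ * lift ψ), hresmem _, ?_⟩
      apply AlgHom.ext
      intro d
      rw [hres, AlgEquiv.mul_apply, hliftc _ (hresmem _), hres, AlgEquiv.mul_apply,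
        hliftc ψ hψ]
      show τ (τ⁻¹ (ψ d)) = ψ d
      rw [← AlgEquiv.mul_apply, mul_inv_cancel, AlgEquiv.one_apply]
    · intro φ hφ
      have h1 := hagree (τ * lift φ) (lift (res (τ * lift φ)))
        (hlift _ (hresmem _)).symm _ hcy
      rw [← h1, AlgEquiv.mul_apply]
  have hAkb : (∑ φ ∈ Emb, φ c * a (lift φ)) ∈ kb :=
    sum_mem fun φ hφ => mul_mem (hckb φ hφ) (ha _)
  have hBkb : (∑ φ ∈ Emb, φ c * b (lift φ)) ∈ kb :=
    sum_mem fun φ hφ => mul_mem (hckb φ hφ) (hb _)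
  set A : Ω := ∑ φ ∈ Emb, φ c * a (lift φ) with hA
  set B : Ω := ∑ φ ∈ Emb, φ c * b (lift φ) with hB
  refine ⟨s, hsZ, ⟨A, hAkb, B, hBkb, hc, hsAB⟩, ?_⟩
  -- Step F: `Z ≤ k(s)`
  have hyeq : y = B⁻¹ * (s - A) := by
    rw [hsAB]
    field_simp
    ring
  have hstr : Transcendental k s := by
    intro halg
    apply hytr
    have h1 : IsAlgebraic ↥kb s := halg.tower_top ↥kb
    have hA' : IsAlgebraic ↥kb A := isAlgebraic_algebraMap (⟨A, hAkb⟩ : ↥kb)
    have hB' : IsAlgebraic ↥kb B⁻¹ := isAlgebraic_algebraMap (⟨B⁻¹, inv_mem hBkb⟩ : ↥kb)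
    rw [hyeq]
    exact hB'.mul (h1.sub hA')
  intro z hz
  obtain ⟨r, q, hrq⟩ := (IntermediateField.mem_adjoin_simple_iff ↥kb z).mp (hZ z hz)
  by_cases hq : aeval y q = 0
  · rw [hq, div_zero] at hrq
    rw [hrq]
    exact zero_mem _
  · let L : Polynomial ↥kb := C (⟨B⁻¹, inv_mem hBkb⟩ : ↥kb) * (X - C (⟨A, hAkb⟩ : ↥kb))
    have hL : aeval s L = y := by
      simp only [L, map_mul, map_sub, aeval_C, aeval_X]
      rw [hyeq]
      rfl
    have hr' : aeval s (r.comp L) = aeval y r := by rw [aeval_comp, hL]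
    have hq' : aeval s (q.comp L) = aeval y q := by rw [aeval_comp, hL]
    refine s52r_mem_adjoin Z kb hstabkb hreg hsZ hstr hz (r.comp L) (q.comp L) ?_ ?_
    · rwa [hq']
    · rw [hq', hr', hrq, div_mul_cancel₀ _ hq]

end Fermat.Agent.S52
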